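/-
Programme MAZ (S15), LeafK3 hub plug, brick NULLSTELLENSATZ POINT (helper36; assigned by helper43),
input of helper60's ONE-SECTION.  Mathlib only.

* `exists_mul_eq_one_of_isIntegral` : `a ∈ A`, `u ∈ R` integral over `A`, `a u = 1`  ⟹  `a` is
  invertible already in (the image of) `A`;
* (a) `not_isUnit_of_transcendental` : `s` transcendental over the field `Ω`, `R` integral over `Ω[s]`
  ⟹ `s` is not a unit of `R`;
* (b) `exists_algHom_eq_zero` : `B` of finite type over `W`, integral over `W[s]`, `1 ⊗ s` not a unit of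
  `Ω ⊗[W] B` (`Ω` algebraically closed)  ⟹  there is a `W`-algebra homomorphism `q : B → Ω` with
  `q s = 0` and `q b` integral over `W` for every `b`;
* (c) `exists_algHom_eq_zero_fg` : moreover the image of `q` is a finitely generated `W`-subalgebra of
  `Ω`, finite as a `W`-module, all of whose elements are integral over `W`.
-/
import Mathlib

set_option autoImplicit false
set_option linter.style.haveILetI false

open Polynomial TensorProduct

namespace Fermat.Agent.MAZ.PtOne36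

/-! ### Units and integral extensions -/

/-- If `u` is integral over `A` and `a u = 1` with `a ∈ A`, then `a` is invertible in the image of
`A`. -/
theorem exists_mul_eq_one_of_isIntegral {A R : Type*} [CommRing A] [CommRing R] [Algebra A R]
    (a : A) (u : R) (hu : IsIntegral A u) (h : algebraMap A R a * u = 1) :
    ∃ c : A, algebraMap A R (a * c) = 1 := by
  obtain ⟨p, hp, hpu⟩ := hu
  have h1 : eval₂ (algebraMap A R) 1 (scaleRoots p a) = 0 := by
    have := scaleRoots_eval₂_eq_zero (algebraMap A R) (s := a) hpu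
    rwa [h] at this
  rw [eval₂_at_one] at h1
  -- `(scaleRoots p a).eval 1 = 1 + a * c`
  have h2 : ∃ c : A, (scaleRoots p a).eval 1 = 1 + a * c := by
    rw [eval_eq_sum_range, natDegree_scaleRoots, Finset.sum_range_succ, coeff_scaleRoots_natDegree,
      hp.leadingCoeff, one_pow, mul_one]
    have hdvd : a ∣ ∑ i ∈ Finset.range p.natDegree, (scaleRoots p a).coeff i * 1 ^ i := by
      refine Finset.dvd_sum fun i hi => ?_
      rw [coeff_scaleRoots, one_pow, mul_one]
      have hi' : i < p.natDegree := Finset.mem_range.1 hi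
      have : p.natDegree - i = (p.natDegree - i - 1) + 1 := by omega
      rw [this, pow_succ]
      exact ⟨p.coeff i * a ^ (p.natDegree - i - 1), by ring⟩
    obtain ⟨c, hc⟩ := hdvd
    exact ⟨c, by rw [hc, add_comm]⟩
  obtain ⟨c, hc⟩ := h2
  refine ⟨-c, ?_⟩
  rw [hc, map_add, map_one] at h1
  rw [mul_neg, map_neg]
  linear_combination (-1 : R) * h1

/-! ### (a) -/

/-- **(a)** a transcendental element over which the ring is integral is not a unit. -/
theorem not_isUnit_of_transcendental {Ω R : Type*} [Field Ω] [CommRing R] [Algebra Ω R] (s : R)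
    (htr : Transcendental Ω s) (hint : ∀ b : R, IsIntegral (Algebra.adjoin Ω {s}) b) :
    ¬ IsUnit s := by
  rintro ⟨⟨s', u, hsu, hus⟩, rfl⟩
  obtain ⟨c, hc⟩ := exists_mul_eq_one_of_isIntegral
    (⟨s', Algebra.subset_adjoin (Set.mem_singleton s')⟩ : ↥(Algebra.adjoin Ω {s'})) u (hint u) hsu
  -- `c = g(s)`
  have hcmem : (c : R) ∈ (Polynomial.aeval (R := Ω) s').range := by
    rw [← Algebra.adjoin_singleton_eq_range_aeval]
    exact c.2
  obtain ⟨g, hg⟩ := hcmem
  have hsc : s' * (c : R) = 1 := by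
    rw [map_mul] at hc
    exact hc
  have h1 : aeval s' (X * g - 1 : Polynomial Ω) = 0 := by
    rw [map_sub, map_mul, aeval_X, map_one, sub_eq_zero, ← hsc]
    congr 1
  have h2 : (X * g - 1 : Polynomial Ω) = 0 := by
    by_contra hne
    exact htr ⟨_, hne, h1⟩
  have h3 := congrArg (Polynomial.eval 0) h2
  simp at h3

/-! ### (b), (c) -/

/-- integrality through a ring homomorphism whose range lies in the range of `algebraMap W Ω`. -/
theorem isIntegral_of_range_le {W A Ω : Type*} [CommRing W] [CommRing A] [CommRing Ω]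
    [Algebra W Ω] (f : A →+* Ω) (hf : ∀ a, ∃ w : W, f a = algebraMap W Ω w) (x : Ω)
    (hx : f.IsIntegralElem x) : IsIntegral W x := by
  obtain ⟨p, hp, hpx⟩ := hx
  have hl : p.map f ∈ Polynomial.lifts (algebraMap W Ω) := by
    rw [lifts_iff_coeff_lifts]
    intro n
    rw [coeff_map]
    obtain ⟨w, hw⟩ := hf (p.coeff n)
    exact ⟨w, hw.symm⟩
  obtain ⟨q, hq, -, hqm⟩ := lifts_and_natDegree_eq_and_monic hl (hp.map f)
  refine ⟨q, hqm, ?_⟩
  rw [← eval_map, hq, eval_map]
  exact hpx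

/-- a `W`-algebra homomorphism killing `s` maps `W[s]` into the image of `W`. -/
theorem exists_eq_algebraMap_of_mem_adjoin {W B Ω : Type*} [CommRing W] [CommRing B] [CommRing Ω]
    [Algebra W B] [Algebra W Ω] (q : B →ₐ[W] Ω) {s : B} (hs : q s = 0) {a : B}
    (ha : a ∈ Algebra.adjoin W {s}) : ∃ w : W, q a = algebraMap W Ω w := by
  induction ha using Algebra.adjoin_induction with
  | mem x hx =>
    rw [Set.mem_singleton_iff] at hx
    exact ⟨0, by rw [hx, hs, map_zero]⟩
  | algebraMap r => exact ⟨r, q.commutes r⟩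
  | add x y _ _ hx hy =>
    obtain ⟨w₁, h₁⟩ := hx
    obtain ⟨w₂, h₂⟩ := hy
    exact ⟨w₁ + w₂, by rw [map_add, h₁, h₂, map_add]⟩
  | mul x y _ _ hx hy =>
    obtain ⟨w₁, h₁⟩ := hx
    obtain ⟨w₂, h₂⟩ := hy
    exact ⟨w₁ * w₂, by rw [map_mul, h₁, h₂, map_mul]⟩

/-- if `B` is integral over `W[s]` and `q s = 0` then every `q b` is integral over `W`. -/
theorem isIntegral_of_algHom_eq_zero {W B Ω : Type*} [CommRing W] [CommRing B] [CommRing Ω]
    [Algebra W B] [Algebra W Ω] (q : B →ₐ[W] Ω) {s : B} (hs : q s = 0)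
    (hint : ∀ b : B, IsIntegral (Algebra.adjoin W {s}) b) (b : B) : IsIntegral W (q b) := by
  refine isIntegral_of_range_le
    ((q : B →+* Ω).comp (algebraMap ↥(Algebra.adjoin W {s}) B)) (fun a => ?_) (q b) ?_
  · exact exists_eq_algebraMap_of_mem_adjoin q hs a.2
  · obtain ⟨p, hp, hpb⟩ := hint b
    refine ⟨p, hp, ?_⟩
    have := congrArg q hpb
    rw [map_zero] at this
    rw [← this]
    exact (Polynomial.hom_eval₂ p (algebraMap ↥(Algebra.adjoin W {s}) B) (q : B →+* Ω) b).symm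

/-- **(b)** a `W`-point of `B` in `Ω` at which `s` vanishes, with integral coordinates. -/
theorem exists_algHom_eq_zero {W Ω B : Type*} [CommRing W] [Field Ω] [IsAlgClosed Ω]
    [Algebra W Ω] [CommRing B] [Algebra W B] [Algebra.FiniteType W B] (s : B)
    (hint : ∀ b : B, IsIntegral (Algebra.adjoin W {s}) b)
    (hs : ¬ IsUnit ((1 : Ω) ⊗ₜ[W] s : Ω ⊗[W] B)) :
    ∃ q : B →ₐ[W] Ω, q s = 0 ∧ ∀ b, IsIntegral W (q b) := by
  obtain ⟨𝔪, h𝔪, hmem⟩ := exists_max_ideal_of_mem_nonunits hs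
  letI := Ideal.Quotient.field 𝔪
  haveI : Algebra.FiniteType Ω (Ω ⊗[W] B) := inferInstance
  haveI : Algebra.FiniteType Ω ((Ω ⊗[W] B) ⧸ 𝔪) :=
    Algebra.FiniteType.of_surjective (Ideal.Quotient.mkₐ Ω 𝔪) (Ideal.Quotient.mkₐ_surjective Ω 𝔪)
  haveI : Module.Finite Ω ((Ω ⊗[W] B) ⧸ 𝔪) := finite_of_finite_type_of_isJacobsonRing Ω _
  haveI : Algebra.IsIntegral Ω ((Ω ⊗[W] B) ⧸ 𝔪) := Algebra.IsIntegral.of_finite Ω _
  have hbij : Function.Bijective (algebraMap Ω ((Ω ⊗[W] B) ⧸ 𝔪)) :=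
    IsAlgClosed.algebraMap_bijective_of_isIntegral
  let e : Ω ≃ₐ[Ω] ((Ω ⊗[W] B) ⧸ 𝔪) := AlgEquiv.ofBijective (Algebra.ofId Ω _) hbij
  let q : B →ₐ[W] Ω :=
    ((e.symm : ((Ω ⊗[W] B) ⧸ 𝔪) →ₐ[Ω] Ω).restrictScalars W).comp
      (((Ideal.Quotient.mkₐ Ω 𝔪).restrictScalars W).comp Algebra.TensorProduct.includeRight)
  have hqs : q s = 0 := by
    show e.symm (Ideal.Quotient.mk 𝔪 ((1 : Ω) ⊗ₜ[W] s)) = 0
    rw [Ideal.Quotient.eq_zero_iff_mem.2 hmem, map_zero]
  exact ⟨q, hqs, isIntegral_of_algHom_eq_zero q hqs hint⟩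

/-- **(c)** the same point, with its image inside a finitely generated `W`-subalgebra of `Ω`, finite as
a `W`-module, all of whose elements are integral over `W`. -/
theorem exists_algHom_eq_zero_fg {W Ω B : Type*} [CommRing W] [Field Ω] [IsAlgClosed Ω]
    [Algebra W Ω] [CommRing B] [Algebra W B] [Algebra.FiniteType W B] (s : B)
    (hint : ∀ b : B, IsIntegral (Algebra.adjoin W {s}) b)
    (hs : ¬ IsUnit ((1 : Ω) ⊗ₜ[W] s : Ω ⊗[W] B)) :
    ∃ (q : B →ₐ[W] Ω) (S : Subalgebra W Ω), q s = 0 ∧ (∀ b, q b ∈ S) ∧ S.FG ∧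
      (∀ x ∈ S, IsIntegral W x) ∧ Module.Finite W ↥S := by
  obtain ⟨q, hqs, hq⟩ := exists_algHom_eq_zero (Ω := Ω) s hint hs
  have hfg : q.range.FG := by
    rw [← Algebra.map_top]
    exact (Algebra.FiniteType.out (R := W) (A := B)).map q
  have hintS : ∀ x ∈ q.range, IsIntegral W x := by
    rintro _ ⟨b, rfl⟩
    exact hq b
  refine ⟨q, q.range, hqs, fun b => ⟨b, rfl⟩, hfg, hintS, ?_⟩
  haveI : Algebra.FiniteType W ↥q.range := ⟨(Subalgebra.fg_top _).2 hfg⟩
  haveI : Algebra.IsIntegral W ↥q.range :=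
    ⟨fun x => (isIntegral_algHom_iff q.range.val Subtype.val_injective).1 (hintS x x.2)⟩
  exact Algebra.IsIntegral.finite

end Fermat.Agent.MAZ.PtOne36
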