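/-
Programme MAZ (S15), LeafK3 hub plug, brick NULLSTELLENSATZ POINT (helper36), part 2: THE BASE CHANGE
ADAPTER and the turnkey form.

* `isIntegral_tmul_of_isIntegral_adjoin` : `B` integral over `W[s]`  ⟹  `Ω ⊗[W] B` integral over
  `Ω[1 ⊗ s]`;
* `not_isUnit_one_tmul` : if moreover `1 ⊗ s` is transcendental over the field `Ω`, it is not a unit;
* **`exists_algHom_eq_zero_of_transcendental`** : `Ω` algebraically closed, `B` of finite type over `W`
  and integral over `W[s]`, `1 ⊗ s` transcendental over `Ω`  ⟹  a `W`-algebra homomorphism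
  `q : B → Ω` with `q s = 0`, image in a finitely generated `W`-subalgebra `S` of `Ω`, finite as a
  `W`-module, all of whose elements are integral over `W`.
-/
import Mathlib
import Fermat.Agent.MAZ.PtOne36.Main

set_option autoImplicit false
set_option linter.style.haveILetI false

open Polynomial TensorProduct

namespace Fermat.Agent.MAZ.PtOne36

/-- transport of integrality along an algebra homomorphism mapping the small ring into a
subalgebra of the target. -/
theorem isIntegral_map_of_le {W B C Ω : Type*} [CommRing W] [CommRing B] [CommRing C] [CommRing Ω]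
    [Algebra W B] [Algebra W C] [Algebra Ω C] (φ : B →ₐ[W] C) (S : Subalgebra W B)
    (S' : Subalgebra Ω C) (hS : ∀ a ∈ S, φ a ∈ S') {b : B} (hb : IsIntegral ↥S b) :
    IsIntegral ↥S' (φ b) := by
  obtain ⟨p, hp, hpb⟩ := hb
  let g : ↥S →+* ↥S' := ((φ : B →+* C).comp (algebraMap ↥S B)).codRestrict S'.toSubring
    (fun a => hS a a.2)
  refine ⟨p.map g, hp.map g, ?_⟩
  rw [eval₂_map]
  have hcomp : (algebraMap ↥S' C).comp g = (φ : B →+* C).comp (algebraMap ↥S B) := by
    ext a
    rfl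
  rw [hcomp]
  have := congrArg φ hpb
  rw [map_zero] at this
  rw [← this]
  exact (Polynomial.hom_eval₂ p (algebraMap ↥S B) (φ : B →+* C) b).symm

variable {W Ω B : Type*} [CommRing W] [Field Ω] [Algebra W Ω] [CommRing B] [Algebra W B]

/-- `includeRight` maps `W[s]` into `Ω[1 ⊗ s]`. -/
theorem includeRight_mem_adjoin (s : B) {a : B} (ha : a ∈ Algebra.adjoin W {s}) :
    (Algebra.TensorProduct.includeRight (R := W) (A := Ω) (B := B) a) ∈
      Algebra.adjoin Ω {((1 : Ω) ⊗ₜ[W] s : Ω ⊗[W] B)} := by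
  induction ha using Algebra.adjoin_induction with
  | mem x hx =>
    rw [Set.mem_singleton_iff] at hx
    rw [hx]
    exact Algebra.subset_adjoin (Set.mem_singleton _)
  | algebraMap r =>
    rw [AlgHom.commutes, IsScalarTower.algebraMap_apply W Ω (Ω ⊗[W] B)]
    exact Subalgebra.algebraMap_mem _ _
  | add x y _ _ hx hy => rw [map_add]; exact Subalgebra.add_mem _ hx hy
  | mul x y _ _ hx hy => rw [map_mul]; exact Subalgebra.mul_mem _ hx hy

/-- **Base change of the integrality hypothesis.** -/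
theorem isIntegral_tmul_of_isIntegral_adjoin (s : B)
    (hint : ∀ b : B, IsIntegral (Algebra.adjoin W {s}) b) (z : Ω ⊗[W] B) :
    IsIntegral (Algebra.adjoin Ω {((1 : Ω) ⊗ₜ[W] s : Ω ⊗[W] B)}) z := by
  induction z using TensorProduct.induction_on with
  | zero => exact isIntegral_zero
  | tmul ω b =>
    have h1 : IsIntegral (Algebra.adjoin Ω {((1 : Ω) ⊗ₜ[W] s : Ω ⊗[W] B)})
        ((1 : Ω) ⊗ₜ[W] b : Ω ⊗[W] B) :=
      isIntegral_map_of_le (Algebra.TensorProduct.includeRight (R := W) (A := Ω) (B := B))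
        (Algebra.adjoin W {s}) _ (fun a ha => includeRight_mem_adjoin s ha) (hint b)
    have h2 : (ω ⊗ₜ[W] b : Ω ⊗[W] B) = ω • ((1 : Ω) ⊗ₜ[W] b) := by
      rw [TensorProduct.smul_tmul', smul_eq_mul, mul_one]
    rw [h2]
    exact h1.smul ω
  | add x y hx hy => exact hx.add hy

/-- `1 ⊗ s` is not a unit of `Ω ⊗[W] B` when it is transcendental over `Ω`. -/
theorem not_isUnit_one_tmul (s : B) (hint : ∀ b : B, IsIntegral (Algebra.adjoin W {s}) b)
    (htr : Transcendental Ω ((1 : Ω) ⊗ₜ[W] s : Ω ⊗[W] B)) :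
    ¬ IsUnit ((1 : Ω) ⊗ₜ[W] s : Ω ⊗[W] B) :=
  not_isUnit_of_transcendental _ htr (isIntegral_tmul_of_isIntegral_adjoin s hint)

/-- **Turnkey form**: the point at which `s` vanishes. -/
theorem exists_algHom_eq_zero_of_transcendental [IsAlgClosed Ω] [Algebra.FiniteType W B] (s : B)
    (hint : ∀ b : B, IsIntegral (Algebra.adjoin W {s}) b)
    (htr : Transcendental Ω ((1 : Ω) ⊗ₜ[W] s : Ω ⊗[W] B)) :
    ∃ (q : B →ₐ[W] Ω) (S : Subalgebra W Ω), q s = 0 ∧ (∀ b, q b ∈ S) ∧ S.FG ∧
      (∀ x ∈ S, IsIntegral W x) ∧ Module.Finite W ↥S :=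
  exists_algHom_eq_zero_fg s hint (not_isUnit_one_tmul s hint htr)

end Fermat.Agent.MAZ.PtOne36
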